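/-
Row 37 (S43), block H5 (helper148).  PURE ALGEBRA (Mathlib only).

`𝕋` a commutative subalgebra of `End_k W`, `BB 𝕋` its centraliser, `JJ 𝕋 ⊆ BB 𝕋` the span of the products `t * b`
(`t ∈ 𝕋` nilpotent, `b ∈ BB 𝕋`), `VV 𝕋 = BB 𝕋 ⧸ JJ 𝕋`.  A monoid `G` acting on `W` through `BB 𝕋` acts on `VV 𝕋` by left
multiplication (`lact`).  `Dec 𝕋 x` : `x` is a finite sum `∑ t j * e j` (the shape of the field `H5` of `Deform2.Data`).
-/
import Mathlib

set_option autoImplicit false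

namespace Fermat.Agent.S43.H5

variable {k : Type*} [Field k] {W : Type*} [AddCommGroup W] [Module k W]

/-- the centraliser of `𝕋` -/
abbrev BB (𝕋 : Subalgebra k (Module.End k W)) : Subalgebra k (Module.End k W) :=
  Subalgebra.centralizer k (𝕋 : Set (Module.End k W))

theorem mem_BB {𝕋 : Subalgebra k (Module.End k W)} {b : Module.End k W} :
    b ∈ BB 𝕋 ↔ ∀ s ∈ 𝕋, Commute b s := by
  rw [Subalgebra.mem_centralizer_iff]
  constructor
  · intro h s hs
    exact (h s hs).symm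
  · intro h s hs
    exact (h s hs).symm

/-- the shape of `H5` -/
def Dec (𝕋 : Subalgebra k (Module.End k W)) (x : Module.End k W) : Prop :=
  ∃ (J : Type) (_ : Fintype J) (t e : J → Module.End k W), (∀ j, t j ∈ 𝕋) ∧ (∀ j, IsNilpotent (t j)) ∧
    (∀ j, ∀ s ∈ 𝕋, Commute (e j) s) ∧ x = ∑ j, t j * e j

theorem Dec.zero (𝕋 : Subalgebra k (Module.End k W)) : Dec 𝕋 0 :=
  ⟨Empty, inferInstance, fun _ => 0, fun _ => 0, fun j => j.elim, fun j => j.elim, fun j => j.elim, by simp⟩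

theorem Dec.single {𝕋 : Subalgebra k (Module.End k W)} {t b : Module.End k W} (ht : t ∈ 𝕋)
    (hn : IsNilpotent t) (hb : ∀ s ∈ 𝕋, Commute b s) : Dec 𝕋 (t * b) :=
  ⟨Unit, inferInstance, fun _ => t, fun _ => b, fun _ => ht, fun _ => hn, fun _ => hb, by simp⟩

theorem Dec.add {𝕋 : Subalgebra k (Module.End k W)} {x y : Module.End k W} (hx : Dec 𝕋 x) (hy : Dec 𝕋 y) :
    Dec 𝕋 (x + y) := by
  obtain ⟨J, _, t, e, h1, h2, h3, rfl⟩ := hx
  obtain ⟨J', _, t', e', h1', h2', h3', rfl⟩ := hy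
  refine ⟨J ⊕ J', inferInstance, Sum.elim t t', Sum.elim e e', ?_, ?_, ?_, ?_⟩
  · rintro (j | j)
    · exact h1 j
    · exact h1' j
  · rintro (j | j)
    · exact h2 j
    · exact h2' j
  · rintro (j | j)
    · exact h3 j
    · exact h3' j
  · rw [Fintype.sum_sum_type]
    rfl

theorem Dec.smul {𝕋 : Subalgebra k (Module.End k W)} {x : Module.End k W} (c : k) (hx : Dec 𝕋 x) :
    Dec 𝕋 (c • x) := by
  obtain ⟨J, _, t, e, h1, h2, h3, rfl⟩ := hx
  refine ⟨J, inferInstance, t, fun j => c • e j, h1, h2, fun j s hs => (h3 j s hs).smul_left c, ?_⟩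
  rw [Finset.smul_sum]
  exact Finset.sum_congr rfl fun j _ => (mul_smul_comm c (t j) (e j)).symm

/-- the span of the products `t * b` -/
def JJ (𝕋 : Subalgebra k (Module.End k W)) : Submodule k (BB 𝕋) :=
  Submodule.span k {x | ∃ t ∈ 𝕋, IsNilpotent t ∧ ∃ b : BB 𝕋, (x : Module.End k W) = t * b}

theorem dec_of_mem_JJ {𝕋 : Subalgebra k (Module.End k W)} {x : BB 𝕋} (hx : x ∈ JJ 𝕋) :
    Dec 𝕋 (x : Module.End k W) := by
  induction hx using Submodule.span_induction with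
  | mem x h =>
    obtain ⟨t, ht, hn, b, hb⟩ := h
    rw [hb]
    exact Dec.single ht hn (mem_BB.1 b.2)
  | zero => exact Dec.zero 𝕋
  | add x y _ _ hx hy => exact hx.add hy
  | smul c x _ hx => exact hx.smul c

theorem mul_mem_JJ {𝕋 : Subalgebra k (Module.End k W)} {t : Module.End k W} (ht : t ∈ 𝕋)
    (hn : IsNilpotent t) (b x : BB 𝕋) (hx : (x : Module.End k W) = t * b) : x ∈ JJ 𝕋 :=
  Submodule.subset_span ⟨t, ht, hn, b, hx⟩

theorem mulLeft_mem_JJ {𝕋 : Subalgebra k (Module.End k W)} (a : BB 𝕋) {x : BB 𝕋} (hx : x ∈ JJ 𝕋) :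
    a * x ∈ JJ 𝕋 := by
  induction hx using Submodule.span_induction with
  | mem x h =>
    obtain ⟨t, ht, hn, b, hb⟩ := h
    refine mul_mem_JJ ht hn (a * b) _ ?_
    have hc : Commute (a : Module.End k W) t := mem_BB.1 a.2 t ht
    show (a : Module.End k W) * (x : Module.End k W) = t * ((a : Module.End k W) * (b : Module.End k W))
    rw [hb, ← mul_assoc, hc.eq, mul_assoc]
  | zero => rw [mul_zero]; exact zero_mem _
  | add x y _ _ hx hy => rw [mul_add]; exact add_mem hx hy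
  | smul c x _ hx => rw [mul_smul_comm]; exact Submodule.smul_mem _ c hx

/-- the quotient -/
abbrev VV (𝕋 : Subalgebra k (Module.End k W)) : Type _ := BB 𝕋 ⧸ JJ 𝕋

/-- left multiplication on the quotient -/
noncomputable def lmul (𝕋 : Subalgebra k (Module.End k W)) (a : BB 𝕋) : VV 𝕋 →ₗ[k] VV 𝕋 :=
  Submodule.mapQ (JJ 𝕋) (JJ 𝕋) (LinearMap.mulLeft k a) fun _ hx => mulLeft_mem_JJ a hx

@[simp] theorem lmul_mk (𝕋 : Subalgebra k (Module.End k W)) (a b : BB 𝕋) :
    lmul 𝕋 a (Submodule.Quotient.mk b) = Submodule.Quotient.mk (a * b) := rfl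

/-- the action of `G` on the quotient by left multiplication -/
noncomputable def lact {G : Type*} [Monoid G] (𝕋 : Subalgebra k (Module.End k W)) (r : G →* Module.End k W)
    (hr : ∀ g, ∀ s ∈ 𝕋, Commute (r g) s) : G →* AddMonoid.End (VV 𝕋) where
  toFun g := (lmul 𝕋 ⟨r g, mem_BB.2 (hr g)⟩).toAddMonoidHom
  map_one' := by
    refine AddMonoidHom.ext fun v => ?_
    obtain ⟨b, rfl⟩ := Submodule.Quotient.mk_surjective _ v
    show lmul 𝕋 _ (Submodule.Quotient.mk b) = Submodule.Quotient.mk b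
    rw [lmul_mk]
    congr 1
    ext1
    show r 1 * (b : Module.End k W) = b
    rw [map_one, one_mul]
  map_mul' g h := by
    refine AddMonoidHom.ext fun v => ?_
    obtain ⟨b, rfl⟩ := Submodule.Quotient.mk_surjective _ v
    show lmul 𝕋 _ (Submodule.Quotient.mk b) = lmul 𝕋 _ (lmul 𝕋 _ (Submodule.Quotient.mk b))
    rw [lmul_mk, lmul_mk, lmul_mk]
    congr 1
    ext1
    show r (g * h) * (b : Module.End k W) = r g * (r h * (b : Module.End k W))
    rw [map_mul, mul_assoc]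

theorem lact_mk {G : Type*} [Monoid G] (𝕋 : Subalgebra k (Module.End k W)) (r : G →* Module.End k W)
    (hr : ∀ g, ∀ s ∈ 𝕋, Commute (r g) s) (g : G) (b : BB 𝕋) :
    lact 𝕋 r hr g (Submodule.Quotient.mk b) =
      Submodule.Quotient.mk ((⟨r g, mem_BB.2 (hr g)⟩ : BB 𝕋) * b) := rfl

/-- if `g` acts trivially on the quotient then `r g - 1` has the shape `H5`. -/
theorem dec_of_lact_eq_one {G : Type*} [Monoid G] (𝕋 : Subalgebra k (Module.End k W))
    (r : G →* Module.End k W) (hr : ∀ g, ∀ s ∈ 𝕋, Commute (r g) s) (g : G) (h : lact 𝕋 r hr g = 1) :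
    Dec 𝕋 (r g - 1) := by
  have h1 := congrArg (fun f : AddMonoid.End (VV 𝕋) => f (Submodule.Quotient.mk 1)) h
  have h2 : (Submodule.Quotient.mk ((⟨r g, mem_BB.2 (hr g)⟩ : BB 𝕋) * 1) : VV 𝕋) =
      Submodule.Quotient.mk 1 := h1
  rw [Submodule.Quotient.eq, mul_one] at h2
  exact dec_of_mem_JJ h2

/-- the quadratic relation passes to the quotient. -/
theorem lact_quad {G : Type*} [Monoid G] (𝕋 : Subalgebra k (Module.End k W))
    (h𝕋 : ∀ s ∈ 𝕋, ∀ t ∈ 𝕋, Commute s t)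
    (r : G →* Module.End k W) (hr : ∀ g, ∀ s ∈ 𝕋, Commute (r g) s) (g : G) (Tl Dl : Module.End k W)
    (a l : k) (hT : Tl ∈ 𝕋) (hD : Dl ∈ 𝕋) (hTn : IsNilpotent (Tl - a • (1 : Module.End k W)))
    (hDn : IsNilpotent (Dl - 1)) (hq : r g * r g - Tl * r g + l • Dl = 0) (v : VV 𝕋) :
    lact 𝕋 r hr g (lact 𝕋 r hr g v) - a • lact 𝕋 r hr g v + l • v = 0 := by
  obtain ⟨b, rfl⟩ := Submodule.Quotient.mk_surjective _ v
  rw [lact_mk, lact_mk, ← Submodule.Quotient.mk_smul, ← Submodule.Quotient.mk_smul,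
    ← Submodule.Quotient.mk_sub, ← Submodule.Quotient.mk_add, Submodule.Quotient.mk_eq_zero]
  set R : BB 𝕋 := ⟨r g, mem_BB.2 (hr g)⟩ with hR
  have hT' : Tl - a • (1 : Module.End k W) ∈ 𝕋 := sub_mem hT (𝕋.smul_mem (one_mem _) a)
  have hD' : Dl - 1 ∈ 𝕋 := sub_mem hD (one_mem _)
  -- the two elements of `JJ`
  have hx1 : (Tl - a • (1 : Module.End k W)) * ((R * b : BB 𝕋) : Module.End k W) ∈ BB 𝕋 :=
    mul_mem (mem_BB.2 fun s hs => h𝕋 _ hT' s hs) (R * b).2
  have hx2 : (Dl - 1) * (b : Module.End k W) ∈ BB 𝕋 :=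
    mul_mem (mem_BB.2 fun s hs => h𝕋 _ hD' s hs) b.2
  have m1 : (⟨_, hx1⟩ : BB 𝕋) ∈ JJ 𝕋 := mul_mem_JJ hT' hTn (R * b) _ rfl
  have m2 : (⟨_, hx2⟩ : BB 𝕋) ∈ JJ 𝕋 := mul_mem_JJ hD' hDn b _ rfl
  have key : R * (R * b) - a • (R * b) + l • b = (⟨_, hx1⟩ : BB 𝕋) - l • (⟨_, hx2⟩ : BB 𝕋) := by
    ext1
    show r g * (r g * (b : Module.End k W)) - a • (r g * (b : Module.End k W)) + l • (b : Module.End k W) =
      (Tl - a • (1 : Module.End k W)) * (r g * (b : Module.End k W)) - l • ((Dl - 1) * (b : Module.End k W))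
    have e : r g * (r g * (b : Module.End k W)) = (Tl * r g - l • Dl) * (b : Module.End k W) := by
      rw [← mul_assoc]
      congr 1
      rw [eq_sub_iff_add_eq, ← sub_eq_zero, ← hq]
      abel
    rw [e]
    simp only [sub_mul, smul_mul_assoc, one_mul, mul_assoc, smul_sub]
    abel
  rw [key]
  exact sub_mem m1 (Submodule.smul_mem _ l m2)

end Fermat.Agent.S43.H5
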