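/-
Row 37 (S43), block H5 (helper148).  PURE ALGEBRA (Mathlib only), SECOND FORM: two algebras `𝕋 ≤ C`.

`C` a (NOT necessarily commutative) subalgebra of `End_k W`, `𝕋 ≤ C` a subalgebra which is central in `C`
(think of `𝕋 = k[T_ℓ, ⟨ℓ⟩]`, `C = k[T_ℓ, ⟨ℓ⟩, U_q, U_q^t]`: NO commutation of `U_q` with `U_q^t` is needed).
`BC C` the centraliser of `C`, `JC 𝕋 C ⊆ BC C` the span of the products `t * b` (`t ∈ 𝕋` nilpotent, `b ∈ BC C`),
`VC 𝕋 C = BC C ⧸ JC 𝕋 C`.  A monoid `G` acting on `W` through `BC C` acts on `VC 𝕋 C` by left multiplication (`lactC`).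
`DecC 𝕋 C x` : `x = ∑ t j * e j`, `t j ∈ 𝕋` nilpotent, `e j` commuting with ALL OF `C`
(the shape of the fields `ι s t a … H5` of `CoreP.Data`, and of `H5` of `Deform2.Data` when `C = 𝕋`).
-/
import Mathlib

set_option autoImplicit false

namespace Fermat.Agent.S43.H5

variable {k : Type*} [Field k] {W : Type*} [AddCommGroup W] [Module k W]

/-- the centraliser of `C` -/
abbrev BC (C : Subalgebra k (Module.End k W)) : Subalgebra k (Module.End k W) :=
  Subalgebra.centralizer k (C : Set (Module.End k W))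

theorem mem_BC {C : Subalgebra k (Module.End k W)} {b : Module.End k W} :
    b ∈ BC C ↔ ∀ s ∈ C, Commute b s := by
  rw [Subalgebra.mem_centralizer_iff]
  constructor
  · intro h s hs
    exact (h s hs).symm
  · intro h s hs
    exact (h s hs).symm

/-- the shape of `H5` -/
def DecC (𝕋 C : Subalgebra k (Module.End k W)) (x : Module.End k W) : Prop :=
  ∃ (J : Type) (_ : Fintype J) (t e : J → Module.End k W), (∀ j, t j ∈ 𝕋) ∧ (∀ j, IsNilpotent (t j)) ∧
    (∀ j, ∀ s ∈ C, Commute (e j) s) ∧ x = ∑ j, t j * e j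

theorem DecC.zero (𝕋 C : Subalgebra k (Module.End k W)) : DecC 𝕋 C 0 :=
  ⟨Empty, inferInstance, fun _ => 0, fun _ => 0, fun j => j.elim, fun j => j.elim, fun j => j.elim, by simp⟩

theorem DecC.single {𝕋 C : Subalgebra k (Module.End k W)} {t b : Module.End k W} (ht : t ∈ 𝕋)
    (hn : IsNilpotent t) (hb : ∀ s ∈ C, Commute b s) : DecC 𝕋 C (t * b) :=
  ⟨Unit, inferInstance, fun _ => t, fun _ => b, fun _ => ht, fun _ => hn, fun _ => hb, by simp⟩

theorem DecC.add {𝕋 C : Subalgebra k (Module.End k W)} {x y : Module.End k W} (hx : DecC 𝕋 C x)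
    (hy : DecC 𝕋 C y) : DecC 𝕋 C (x + y) := by
  obtain ⟨J, _, t, e, h1, h2, h3, rfl⟩ := hx
  obtain ⟨J', _, t', e', h1', h2', h3', rfl⟩ := hy
  refine ⟨J ⊕ J', inferInstance, Sum.elim t t', Sum.elim e e', ?_, ?_, ?_, ?_⟩
  · rintro (j | j)
    · exact h1 j
    · exact h1' j
  · rintro (j | j)
    · exact h2 j
    · exact h2' j
  · rintro (j | j)
    · exact h3 j
    · exact h3' j
  · rw [Fintype.sum_sum_type]
    rfl

theorem DecC.smul {𝕋 C : Subalgebra k (Module.End k W)} {x : Module.End k W} (c : k) (hx : DecC 𝕋 C x) :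
    DecC 𝕋 C (c • x) := by
  obtain ⟨J, _, t, e, h1, h2, h3, rfl⟩ := hx
  refine ⟨J, inferInstance, t, fun j => c • e j, h1, h2, fun j s hs => (h3 j s hs).smul_left c, ?_⟩
  rw [Finset.smul_sum]
  exact Finset.sum_congr rfl fun j _ => (mul_smul_comm c (t j) (e j)).symm

/-- the span of the products `t * b` -/
def JC (𝕋 C : Subalgebra k (Module.End k W)) : Submodule k (BC C) :=
  Submodule.span k {x | ∃ t ∈ 𝕋, IsNilpotent t ∧ ∃ b : BC C, (x : Module.End k W) = t * b}

theorem decC_of_mem_JC {𝕋 C : Subalgebra k (Module.End k W)} {x : BC C} (hx : x ∈ JC 𝕋 C) :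
    DecC 𝕋 C (x : Module.End k W) := by
  induction hx using Submodule.span_induction with
  | mem x h =>
    obtain ⟨t, ht, hn, b, hb⟩ := h
    rw [hb]
    exact DecC.single ht hn (mem_BC.1 b.2)
  | zero => exact DecC.zero 𝕋 C
  | add x y _ _ hx hy => exact hx.add hy
  | smul c x _ hx => exact hx.smul c

theorem mul_mem_JC {𝕋 C : Subalgebra k (Module.End k W)} {t : Module.End k W} (ht : t ∈ 𝕋)
    (hn : IsNilpotent t) (b x : BC C) (hx : (x : Module.End k W) = t * b) : x ∈ JC 𝕋 C :=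
  Submodule.subset_span ⟨t, ht, hn, b, hx⟩

theorem mulLeft_mem_JC {𝕋 C : Subalgebra k (Module.End k W)} (hle : 𝕋 ≤ C) (a : BC C) {x : BC C}
    (hx : x ∈ JC 𝕋 C) : a * x ∈ JC 𝕋 C := by
  induction hx using Submodule.span_induction with
  | mem x h =>
    obtain ⟨t, ht, hn, b, hb⟩ := h
    refine mul_mem_JC ht hn (a * b) _ ?_
    have hc : Commute (a : Module.End k W) t := mem_BC.1 a.2 t (hle ht)
    show (a : Module.End k W) * (x : Module.End k W) = t * ((a : Module.End k W) * (b : Module.End k W))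
    rw [hb, ← mul_assoc, hc.eq, mul_assoc]
  | zero => rw [mul_zero]; exact zero_mem _
  | add x y _ _ hx hy => rw [mul_add]; exact add_mem hx hy
  | smul c x _ hx => rw [mul_smul_comm]; exact Submodule.smul_mem _ c hx

/-- the quotient -/
abbrev VC (𝕋 C : Subalgebra k (Module.End k W)) : Type _ := BC C ⧸ JC 𝕋 C

/-- left multiplication on the quotient -/
noncomputable def lmulC (𝕋 C : Subalgebra k (Module.End k W)) (hle : 𝕋 ≤ C) (a : BC C) :
    VC 𝕋 C →ₗ[k] VC 𝕋 C :=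
  Submodule.mapQ (JC 𝕋 C) (JC 𝕋 C) (LinearMap.mulLeft k a) fun _ hx => mulLeft_mem_JC hle a hx

@[simp] theorem lmulC_mk (𝕋 C : Subalgebra k (Module.End k W)) (hle : 𝕋 ≤ C) (a b : BC C) :
    lmulC 𝕋 C hle a (Submodule.Quotient.mk b) = Submodule.Quotient.mk (a * b) := rfl

/-- the action of `G` on the quotient by left multiplication -/
noncomputable def lactC {G : Type*} [Monoid G] (𝕋 C : Subalgebra k (Module.End k W)) (hle : 𝕋 ≤ C)
    (r : G →* Module.End k W) (hr : ∀ g, ∀ s ∈ C, Commute (r g) s) : G →* AddMonoid.End (VC 𝕋 C) where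
  toFun g := (lmulC 𝕋 C hle ⟨r g, mem_BC.2 (hr g)⟩).toAddMonoidHom
  map_one' := by
    refine AddMonoidHom.ext fun v => ?_
    obtain ⟨b, rfl⟩ := Submodule.Quotient.mk_surjective _ v
    show lmulC 𝕋 C hle _ (Submodule.Quotient.mk b) = Submodule.Quotient.mk b
    rw [lmulC_mk]
    congr 1
    ext1
    show r 1 * (b : Module.End k W) = b
    rw [map_one, one_mul]
  map_mul' g h := by
    refine AddMonoidHom.ext fun v => ?_
    obtain ⟨b, rfl⟩ := Submodule.Quotient.mk_surjective _ v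
    show lmulC 𝕋 C hle _ (Submodule.Quotient.mk b) =
      lmulC 𝕋 C hle _ (lmulC 𝕋 C hle _ (Submodule.Quotient.mk b))
    rw [lmulC_mk, lmulC_mk, lmulC_mk]
    congr 1
    ext1
    show r (g * h) * (b : Module.End k W) = r g * (r h * (b : Module.End k W))
    rw [map_mul, mul_assoc]

theorem lactC_mk {G : Type*} [Monoid G] (𝕋 C : Subalgebra k (Module.End k W)) (hle : 𝕋 ≤ C)
    (r : G →* Module.End k W) (hr : ∀ g, ∀ s ∈ C, Commute (r g) s) (g : G) (b : BC C) :
    lactC 𝕋 C hle r hr g (Submodule.Quotient.mk b) =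
      Submodule.Quotient.mk ((⟨r g, mem_BC.2 (hr g)⟩ : BC C) * b) := rfl

/-- if `g` acts trivially on the quotient then `r g - 1` has the shape `H5`. -/
theorem decC_of_lactC_eq_one {G : Type*} [Monoid G] (𝕋 C : Subalgebra k (Module.End k W)) (hle : 𝕋 ≤ C)
    (r : G →* Module.End k W) (hr : ∀ g, ∀ s ∈ C, Commute (r g) s) (g : G)
    (h : lactC 𝕋 C hle r hr g = 1) : DecC 𝕋 C (r g - 1) := by
  have h1 := congrArg (fun f : AddMonoid.End (VC 𝕋 C) => f (Submodule.Quotient.mk 1)) h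
  have h2 : (Submodule.Quotient.mk ((⟨r g, mem_BC.2 (hr g)⟩ : BC C) * 1) : VC 𝕋 C) =
      Submodule.Quotient.mk 1 := h1
  rw [Submodule.Quotient.eq, mul_one] at h2
  exact decC_of_mem_JC h2

/-- the quadratic relation passes to the quotient. -/
theorem lactC_quad {G : Type*} [Monoid G] (𝕋 C : Subalgebra k (Module.End k W)) (hle : 𝕋 ≤ C)
    (hcen : ∀ t ∈ 𝕋, ∀ s ∈ C, Commute t s)
    (r : G →* Module.End k W) (hr : ∀ g, ∀ s ∈ C, Commute (r g) s) (g : G) (Tl Dl : Module.End k W)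
    (a l : k) (hT : Tl ∈ 𝕋) (hD : Dl ∈ 𝕋) (hTn : IsNilpotent (Tl - a • (1 : Module.End k W)))
    (hDn : IsNilpotent (Dl - 1)) (hq : r g * r g - Tl * r g + l • Dl = 0) (v : VC 𝕋 C) :
    lactC 𝕋 C hle r hr g (lactC 𝕋 C hle r hr g v) - a • lactC 𝕋 C hle r hr g v + l • v = 0 := by
  obtain ⟨b, rfl⟩ := Submodule.Quotient.mk_surjective _ v
  rw [lactC_mk, lactC_mk, ← Submodule.Quotient.mk_smul, ← Submodule.Quotient.mk_smul,
    ← Submodule.Quotient.mk_sub, ← Submodule.Quotient.mk_add, Submodule.Quotient.mk_eq_zero]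
  set R : BC C := ⟨r g, mem_BC.2 (hr g)⟩ with hR
  have hT' : Tl - a • (1 : Module.End k W) ∈ 𝕋 := sub_mem hT (𝕋.smul_mem (one_mem _) a)
  have hD' : Dl - 1 ∈ 𝕋 := sub_mem hD (one_mem _)
  have hx1 : (Tl - a • (1 : Module.End k W)) * ((R * b : BC C) : Module.End k W) ∈ BC C :=
    mul_mem (mem_BC.2 fun s hs => hcen _ hT' s hs) (R * b).2
  have hx2 : (Dl - 1) * (b : Module.End k W) ∈ BC C :=
    mul_mem (mem_BC.2 fun s hs => hcen _ hD' s hs) b.2
  have m1 : (⟨_, hx1⟩ : BC C) ∈ JC 𝕋 C := mul_mem_JC hT' hTn (R * b) _ rfl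
  have m2 : (⟨_, hx2⟩ : BC C) ∈ JC 𝕋 C := mul_mem_JC hD' hDn b _ rfl
  have key : R * (R * b) - a • (R * b) + l • b = (⟨_, hx1⟩ : BC C) - l • (⟨_, hx2⟩ : BC C) := by
    ext1
    show r g * (r g * (b : Module.End k W)) - a • (r g * (b : Module.End k W)) + l • (b : Module.End k W) =
      (Tl - a • (1 : Module.End k W)) * (r g * (b : Module.End k W)) - l • ((Dl - 1) * (b : Module.End k W))
    have e : r g * (r g * (b : Module.End k W)) = (Tl * r g - l • Dl) * (b : Module.End k W) := by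
      rw [← mul_assoc]
      congr 1
      rw [eq_sub_iff_add_eq, ← sub_eq_zero, ← hq]
      abel
    rw [e]
    simp only [sub_mul, smul_mul_assoc, one_mul, mul_assoc, smul_sub]
    abel
  rw [key]
  exact sub_mem m1 (Submodule.smul_mem _ l m2)

end Fermat.Agent.S43.H5
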